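import Fermat.Agent.S14.H358.DeltaPoly

/-!
# S14 / ND (helper358): `δ = ∏_{b=1}^{p-1} (ζ^b - 1)^(b^(p-3))` is not a `p`-th power in `ℚ(ζ_p)`

Mathlib-only.  `ψ : 𝓞 K → 𝔽_p[X]/(X³)`, `ζ ↦ 1 + X`; `δ = (ζ-1)^S · E` with
`E = ∏ (∑_{i<b} ζ^i)^(b^(p-3))`, `ζ - 1` prime and `ζ - 1 ∤ E`; so `δ = y^p` forces `E = y'^p`,
but `Lam (ψ E) = ∑ b^(p-3) Lam (P_b) = -1/12 ≠ 0 = Lam (ψ(y')^p)`.
-/

set_option autoImplicit false

namespace Fermat.Agent.S14.H358

open Polynomial Finset NumberField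

section Ring

variable (p : ℕ) [hp : Fact p.Prime]

/-- The ring `𝔽_p[X]/(X³)`. -/
abbrev R3 : Type := AdjoinRoot ((X : (ZMod p)[X]) ^ 3)

theorem aeval_cyclotomic_R3 (hp5 : 5 ≤ p) :
    Polynomial.aeval (AdjoinRoot.mk ((X : (ZMod p)[X]) ^ 3) (1 + X)) (cyclotomic p ℤ) = 0 := by
  rw [← Polynomial.aeval_map_algebraMap (ZMod p), Polynomial.map_cyclotomic]
  have h1 : cyclotomic p (ZMod p) = (X - 1) ^ (p - 1) := by
    have := Polynomial.cyclotomic_mul_prime_pow_eq (ZMod p) (p := p) (m := 1)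
      (by simpa using hp.out.one_lt.ne') (k := 1) one_pos
    simpa [Polynomial.cyclotomic_one] using this
  rw [h1]
  simp only [map_pow, map_sub, Polynomial.aeval_X, map_one]
  have h2 : AdjoinRoot.mk ((X : (ZMod p)[X]) ^ 3) (1 + X) - 1 =
      AdjoinRoot.mk ((X : (ZMod p)[X]) ^ 3) X := by
    rw [map_add, map_one, add_sub_cancel_left]
  rw [h2, ← map_pow, AdjoinRoot.mk_eq_zero]
  exact pow_dvd_pow X (by omega)

end Ring

/-- Cancellation of a prime power from a `p`-th power. -/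
theorem exists_pow_eq_of_prime_pow_mul {A : Type*} [CommRing A] [IsDomain A] {l E : A}
    (hl : Prime l) (hE : ¬ l ∣ E) (p : ℕ) (hp : 0 < p) :
    ∀ (S : ℕ) (y : A), l ^ S * E = y ^ p → ∃ y' : A, E = y' ^ p := by
  intro S
  induction S using Nat.strong_induction_on with
  | _ S ih =>
    intro y hy
    rcases Nat.eq_zero_or_pos S with hS | hS
    · subst hS
      exact ⟨y, by simpa using hy⟩
    · have hdvd : l ∣ y := by
        apply hl.dvd_of_dvd_pow (n := p)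
        rw [← hy]
        exact Dvd.dvd.mul_right (dvd_pow_self l hS.ne') E
      obtain ⟨y₁, rfl⟩ := hdvd
      rw [mul_pow] at hy
      by_cases hSp : p ≤ S
      · have e : l ^ S = l ^ p * l ^ (S - p) := by
          rw [← pow_add]; congr 1; omega
        rw [e, mul_assoc] at hy
        have := mul_left_cancel₀ (pow_ne_zero p hl.ne_zero) hy
        exact ih (S - p) (by omega) y₁ this
      · exfalso
        apply hE
        have e : l ^ p = l ^ S * l ^ (p - S) := by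
          rw [← pow_add]; congr 1; omega
        rw [e, mul_assoc] at hy
        have := mul_left_cancel₀ (pow_ne_zero S hl.ne_zero) hy
        rw [this]
        exact Dvd.dvd.mul_right (dvd_pow_self l (by omega)) _

section Main

variable (p : ℕ) [hp : Fact p.Prime]
variable (K : Type*) [Field K] [NumberField K] [IsCyclotomicExtension {p} ℚ K]

/-- Core statement: for a primitive `p`-th root of unity `ζ ∈ 𝓞 K`, `K = ℚ(ζ_p)`, `p ≥ 5`, the
element `∏_{b=1}^{p-1} (ζ^b - 1)^(b^(p-3))` is not a `p`-th power in `𝓞 K`. -/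
theorem delta_ne_pow_integer (hp5 : 5 ≤ p) (ζ : 𝓞 K) (hζ : IsPrimitiveRoot ζ p) (y : 𝓞 K) :
    ∏ b ∈ Finset.Icc 1 (p - 1), (ζ ^ b - 1) ^ (b ^ (p - 3)) ≠ y ^ p := by
  have : NeZero p := ⟨hp.out.ne_zero⟩
  intro hy
  -- the primitive root in `K`
  have hzK : IsPrimitiveRoot (ζ : K) p :=
    hζ.map_of_injective (FaithfulSMul.algebraMap_injective (𝓞 K) K)
  have hζeq : hzK.toInteger = ζ := rfl
  have hprime : Prime (ζ - 1) := by
    have := hzK.zeta_sub_one_prime'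
    rwa [hζeq] at this
  -- the ring hom ψ
  have hmin : minpoly ℤ (hzK.integralPowerBasis).gen = cyclotomic p ℤ := by
    rw [IsPrimitiveRoot.integralPowerBasis_gen, hζeq,
      ← minpoly.algebraMap_eq (FaithfulSMul.algebraMap_injective (𝓞 K) K) ζ,
      ← Polynomial.cyclotomic_eq_minpoly hzK hp.out.pos]
  let ψ : 𝓞 K →ₐ[ℤ] R3 p :=
    (hzK.integralPowerBasis).lift (AdjoinRoot.mk ((X : (ZMod p)[X]) ^ 3) (1 + X))
      (by rw [hmin]; exact aeval_cyclotomic_R3 p hp5)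
  have hψζ : ψ ζ = AdjoinRoot.mk ((X : (ZMod p)[X]) ^ 3) (1 + X) := by
    have hgen : (hzK.integralPowerBasis).gen = ζ := by
      rw [IsPrimitiveRoot.integralPowerBasis_gen, hζeq]
    calc ψ ζ = ψ (hzK.integralPowerBasis).gen := by rw [hgen]
      _ = _ := (hzK.integralPowerBasis).lift_gen _ _
  -- decomposition δ = λ^S * E
  set u : ℕ → 𝓞 K := fun b => ∑ i ∈ Finset.range b, ζ ^ i with hu
  set E : 𝓞 K := ∏ b ∈ Finset.Icc 1 (p - 1), (u b) ^ (b ^ (p - 3)) with hE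
  set S : ℕ := ∑ b ∈ Finset.Icc 1 (p - 1), b ^ (p - 3) with hS
  have hdec : ∏ b ∈ Finset.Icc 1 (p - 1), (ζ ^ b - 1) ^ (b ^ (p - 3)) = (ζ - 1) ^ S * E := by
    rw [hE, hS, ← Finset.prod_pow_eq_pow_sum, ← Finset.prod_mul_distrib]
    refine Finset.prod_congr rfl fun b _ => ?_
    rw [← mul_pow, hu, mul_geom_sum]
  -- ψ E
  set PE : (ZMod p)[X] := ∏ b ∈ Finset.Icc 1 (p - 1), (Pb p b) ^ (b ^ (p - 3)) with hPE
  have hψu : ∀ b, ψ (u b) = AdjoinRoot.mk ((X : (ZMod p)[X]) ^ 3) (Pb p b) := by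
    intro b
    simp only [hu, Pb, map_sum, map_pow, hψζ]
  have hψE : ψ E = AdjoinRoot.mk ((X : (ZMod p)[X]) ^ 3) PE := by
    simp only [hE, hPE, map_prod, map_pow, hψu]
  have hPb0 : ∀ b ∈ Finset.Icc 1 (p - 1), ((Pb p b) ^ (b ^ (p - 3))).coeff 0 ≠ 0 := by
    intro b hb
    apply coeff_zero_pow_ne_zero
    rw [coeff_zero_Pb]
    exact natCast_ne_zero_of_mem_Icc p hb
  have hPE0 : PE.coeff 0 ≠ 0 := coeff_zero_prod_ne_zero _ _ hPb0
  -- λ ∤ E
  have hndvd : ¬ (ζ - 1) ∣ E := by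
    rintro ⟨w, hw⟩
    obtain ⟨Q, hQ⟩ := AdjoinRoot.mk_surjective (g := (X : (ZMod p)[X]) ^ 3) (ψ w)
    have h1 : ψ E = AdjoinRoot.mk ((X : (ZMod p)[X]) ^ 3) (X * Q) := by
      rw [hw, map_mul, map_sub, map_one, hψζ, ← hQ, ← map_one (AdjoinRoot.mk _), ← map_sub,
        ← map_mul, add_sub_cancel_left]
    rw [hψE, AdjoinRoot.mk_eq_mk] at h1
    have := coeff_zero_congr h1
    rw [Polynomial.coeff_zero_eq_eval_zero (X * Q)] at this
    simp at this
    exact hPE0 this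
  -- E is a p-th power
  rw [hdec] at hy
  obtain ⟨y', hy'⟩ := exists_pow_eq_of_prime_pow_mul hprime hndvd p hp.out.pos S y hy
  obtain ⟨Q, hQ⟩ := AdjoinRoot.mk_surjective (g := (X : (ZMod p)[X]) ^ 3) (ψ y')
  have h2 : ψ E = AdjoinRoot.mk ((X : (ZMod p)[X]) ^ 3) (Q ^ p) := by
    rw [hy', map_pow, ← hQ, map_pow]
  rw [hψE, AdjoinRoot.mk_eq_mk] at h2
  have hL := Lam_congr h2
  rw [Lam_pow_char p (by omega) Q, hPE, Lam_prod _ _ hPb0] at hL
  have hL' : ∑ b ∈ Finset.Icc 1 (p - 1), ((b ^ (p - 3) : ℕ) : ZMod p) * Lam (Pb p b) = 0 := by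
    rw [← hL]
    refine Finset.sum_congr rfl fun b hb => ?_
    rw [Lam_pow]
    rw [coeff_zero_Pb]
    exact natCast_ne_zero_of_mem_Icc p hb
  have hkey := twelve_mul_sum_Lam p hp5
  rw [hL', mul_zero] at hkey
  have h10 : (1 : ZMod p) = 0 := by
    have := congrArg (fun t => -t) hkey
    simpa using this.symm
  exact one_ne_zero h10

/-- `δ` is not a `p`-th power in `K`. -/
theorem delta_not_pow_core (hp5 : 5 ≤ p) (ζ : 𝓞 K) (hζ : IsPrimitiveRoot ζ p) :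
    ¬ ∃ x : K,
      ((∏ b ∈ Finset.Icc 1 (p - 1), (ζ ^ b - 1) ^ (b ^ (p - 3)) : 𝓞 K) : K) = x ^ p := by
  rintro ⟨x, hx⟩
  have hint : IsIntegral ℤ x := by
    apply IsIntegral.of_pow hp.out.pos
    rw [← hx]
    exact NumberField.RingOfIntegers.isIntegral_coe _
  let y : 𝓞 K := ⟨x, hint⟩
  apply delta_ne_pow_integer p K hp5 ζ hζ y
  apply NumberField.RingOfIntegers.ext
  rw [hx]
  exact (map_pow (algebraMap (𝓞 K) K) y p).symm

end Main

end Fermat.Agent.S14.H358
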