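import Mathlib

/-!
# S14 / ND (helper358): polynomial side

`Lam f = (2 a₀ a₂ - a₁²) / a₀²` is additive on products of polynomials with nonzero constant
term (it is twice the second logarithmic coefficient), only depends on the coefficients of
degree `< 3`, and vanishes on `p`-th powers in characteristic `p ≥ 3`.  For
`P b = ∑_{i<b} (1+X)^i` one has `12 * Lam (P b) = (b-1)(b-5)`, hence
`12 * ∑_{b=1}^{p-1} b^(p-3) * Lam (P b) = -1` in `ZMod p` (`p ≥ 5`).
-/

set_option autoImplicit false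

namespace Fermat.Agent.S14.H358

open Polynomial Finset

section Lam

variable {F : Type*} [Field F]

/-- Twice the second logarithmic coefficient of a polynomial with nonzero constant term. -/
noncomputable def Lam (f : F[X]) : F :=
  (2 * f.coeff 0 * f.coeff 2 - f.coeff 1 ^ 2) / (f.coeff 0) ^ 2

theorem coeff_one_mul_H358 (f g : F[X]) :
    (f * g).coeff 1 = f.coeff 0 * g.coeff 1 + f.coeff 1 * g.coeff 0 := by
  rw [Polynomial.coeff_mul]
  simp [Finset.Nat.antidiagonal_succ]

theorem coeff_two_mul_H358 (f g : F[X]) :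
    (f * g).coeff 2 =
      f.coeff 0 * g.coeff 2 + f.coeff 1 * g.coeff 1 + f.coeff 2 * g.coeff 0 := by
  rw [Polynomial.coeff_mul]
  simp [Finset.Nat.antidiagonal_succ]
  ring

theorem Lam_mul {f g : F[X]} (hf : f.coeff 0 ≠ 0) (hg : g.coeff 0 ≠ 0) :
    Lam (f * g) = Lam f + Lam g := by
  unfold Lam
  rw [coeff_one_mul_H358, coeff_two_mul_H358, Polynomial.mul_coeff_zero]
  field_simp
  ring

theorem Lam_one : Lam (1 : F[X]) = 0 := by
  unfold Lam
  simp [Polynomial.coeff_one]

theorem coeff_zero_pow_ne_zero {f : F[X]} (hf : f.coeff 0 ≠ 0) (n : ℕ) :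
    (f ^ n).coeff 0 ≠ 0 := by
  rw [Polynomial.coeff_zero_eq_eval_zero, Polynomial.eval_pow,
    ← Polynomial.coeff_zero_eq_eval_zero]
  exact pow_ne_zero _ hf

theorem Lam_pow {f : F[X]} (hf : f.coeff 0 ≠ 0) (n : ℕ) :
    Lam (f ^ n) = (n : F) * Lam f := by
  induction n with
  | zero => simp [Lam_one]
  | succ n ih =>
    rw [pow_succ, Lam_mul (coeff_zero_pow_ne_zero hf n) hf, ih]
    push_cast
    ring

theorem coeff_zero_prod_ne_zero {ι : Type*} (s : Finset ι) (f : ι → F[X])
    (hf : ∀ i ∈ s, (f i).coeff 0 ≠ 0) : (∏ i ∈ s, f i).coeff 0 ≠ 0 := by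
  rw [Polynomial.coeff_zero_eq_eval_zero, Polynomial.eval_prod]
  refine Finset.prod_ne_zero_iff.mpr fun i hi => ?_
  rw [← Polynomial.coeff_zero_eq_eval_zero]
  exact hf i hi

theorem Lam_prod {ι : Type*} (s : Finset ι) (f : ι → F[X])
    (hf : ∀ i ∈ s, (f i).coeff 0 ≠ 0) : Lam (∏ i ∈ s, f i) = ∑ i ∈ s, Lam (f i) := by
  classical
  induction s using Finset.induction_on with
  | empty => simp [Lam_one]
  | insert a s ha ih =>
    rw [Finset.prod_insert ha, Finset.sum_insert ha,
      Lam_mul (hf a (Finset.mem_insert_self a s))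
        (coeff_zero_prod_ne_zero s f fun i hi => hf i (Finset.mem_insert_of_mem hi)),
      ih fun i hi => hf i (Finset.mem_insert_of_mem hi)]

/-- `Lam` only depends on the class modulo `X ^ 3`. -/
theorem Lam_congr {f g : F[X]} (h : (X : F[X]) ^ 3 ∣ f - g) : Lam f = Lam g := by
  obtain ⟨q, hq⟩ := h
  have hc : ∀ k, k < 3 → f.coeff k = g.coeff k := by
    intro k hk
    have : (f - g).coeff k = 0 := by
      rw [hq, Polynomial.coeff_X_pow_mul', if_neg (by omega)]
    rw [Polynomial.coeff_sub] at this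
    exact sub_eq_zero.mp this
  unfold Lam
  rw [hc 0 (by norm_num), hc 1 (by norm_num), hc 2 (by norm_num)]

theorem coeff_zero_congr {f g : F[X]} (h : (X : F[X]) ^ 3 ∣ f - g) :
    f.coeff 0 = g.coeff 0 := by
  obtain ⟨q, hq⟩ := h
  have : (f - g).coeff 0 = 0 := by
    rw [hq, Polynomial.coeff_X_pow_mul', if_neg (by omega)]
  rw [Polynomial.coeff_sub] at this
  exact sub_eq_zero.mp this

end Lam

section CharP

variable (p : ℕ) [hp : Fact p.Prime]

/-- In characteristic `p ≥ 3`, `Lam` vanishes on `p`-th powers. -/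
theorem Lam_pow_char (hp3 : 3 ≤ p) (Q : (ZMod p)[X]) : Lam (Q ^ p) = 0 := by
  have h := Polynomial.map_frobenius_expand p Q
  have h1 : (Q ^ p).coeff 1 = 0 := by
    rw [← h, Polynomial.coeff_map, Polynomial.coeff_expand hp.out.pos,
      if_neg (by
        intro hd
        have := Nat.le_of_dvd (by norm_num) hd
        omega)]
    simp
  have h2 : (Q ^ p).coeff 2 = 0 := by
    rw [← h, Polynomial.coeff_map, Polynomial.coeff_expand hp.out.pos,
      if_neg (by
        intro hd
        have := Nat.le_of_dvd (by norm_num) hd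
        omega)]
    simp
  unfold Lam
  rw [h1, h2]
  simp

/-- The polynomial `∑_{i<b} (1+X)^i`. -/
noncomputable def Pb (b : ℕ) : (ZMod p)[X] := ∑ i ∈ Finset.range b, (1 + X) ^ i

theorem X_mul_Pb (b : ℕ) : (X : (ZMod p)[X]) * Pb p b = (1 + X) ^ b - 1 := by
  have := mul_geom_sum (1 + X : (ZMod p)[X]) b
  rw [add_sub_cancel_left] at this
  exact this

theorem coeff_Pb (b k : ℕ) : (Pb p b).coeff k = (b.choose (k + 1) : ZMod p) := by
  have h := congrArg (fun f => Polynomial.coeff f (k + 1)) (X_mul_Pb p b)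
  simp only [Polynomial.coeff_X_mul, Polynomial.coeff_sub, Polynomial.coeff_one_add_X_pow,
    Polynomial.coeff_one] at h
  rw [h]
  simp

end CharP

end Fermat.Agent.S14.H358

namespace Fermat.Agent.S14.H358

open Polynomial Finset

theorem two_mul_choose_two_int (b : ℕ) : (2 * (b.choose 2 : ℤ)) = b * (b - 1) := by
  induction b with
  | zero => simp
  | succ n ih =>
    rw [Nat.choose_succ_succ']
    push_cast
    simp only [Nat.choose_one_right]
    linarith

theorem six_mul_choose_three_int (b : ℕ) :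
    (6 * (b.choose 3 : ℤ)) = b * (b - 1) * (b - 2) := by
  induction b with
  | zero => simp
  | succ n ih =>
    rw [Nat.choose_succ_succ']
    push_cast
    have h2 := two_mul_choose_two_int n
    nlinarith [h2, ih]

section Sums

variable (p : ℕ) [hp : Fact p.Prime]

theorem sum_zmod_eq_sum_range (f : ZMod p → ZMod p) :
    ∑ x : ZMod p, f x = ∑ b ∈ Finset.range p, f (b : ZMod p) := by
  have : NeZero p := ⟨hp.out.ne_zero⟩
  symm
  refine Finset.sum_bij' (fun b _ => (b : ZMod p)) (fun x _ => x.val) ?_ ?_ ?_ ?_ ?_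
  · intro a _; exact Finset.mem_univ _
  · intro a _; exact Finset.mem_range.mpr (ZMod.val_lt a)
  · intro a ha; exact ZMod.val_cast_of_lt (Finset.mem_range.mp ha)
  · intro a _; exact ZMod.natCast_zmod_val a
  · intro a _; rfl

theorem sum_Icc_pow_eq_zero (k : ℕ) (hk : k < p - 1) (hk0 : k ≠ 0) :
    ∑ b ∈ Finset.Icc 1 (p - 1), (b : ZMod p) ^ k = 0 := by
  have h := FiniteField.sum_pow_lt_card_sub_one (K := ZMod p) k (by simpa using hk)
  rw [sum_zmod_eq_sum_range p (fun x => x ^ k)] at h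
  have hp1 : 1 ≤ p := hp.out.one_le
  have hr : Finset.range p = insert 0 (Finset.Icc 1 (p - 1)) := by
    ext b
    simp only [Finset.mem_range, Finset.mem_insert, Finset.mem_Icc]
    omega
  rw [hr, Finset.sum_insert (by simp)] at h
  simpa [hk0] using h

theorem natCast_ne_zero_of_mem_Icc {b : ℕ} (hb : b ∈ Finset.Icc 1 (p - 1)) :
    (b : ZMod p) ≠ 0 := by
  rw [Finset.mem_Icc] at hb
  intro h0
  rw [ZMod.natCast_eq_zero_iff] at h0
  have := Nat.le_of_dvd (by omega) h0
  have := hp.out.one_le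
  omega

theorem sum_Icc_pow_card_sub_one :
    ∑ b ∈ Finset.Icc 1 (p - 1), (b : ZMod p) ^ (p - 1) = -1 := by
  have h : ∀ b ∈ Finset.Icc 1 (p - 1), (b : ZMod p) ^ (p - 1) = 1 := fun b hb =>
    ZMod.pow_card_sub_one_eq_one (natCast_ne_zero_of_mem_Icc p hb)
  rw [Finset.sum_congr rfl h]
  simp
  have := hp.out.one_le
  rw [Nat.cast_sub this]
  simp

theorem coeff_zero_Pb (b : ℕ) : (Pb p b).coeff 0 = (b : ZMod p) := by
  simp [coeff_Pb]

theorem twelve_mul_Lam_Pb (b : ℕ) (hb : (b : ZMod p) ≠ 0) :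
    12 * Lam (Pb p b) = ((b : ZMod p) - 1) * ((b : ZMod p) - 5) := by
  have h2 : (2 * (b.choose 2 : ZMod p)) = b * (b - 1) := by
    have := congrArg (Int.cast : ℤ → ZMod p) (two_mul_choose_two_int b)
    push_cast at this
    exact this
  have h3 : (6 * (b.choose 3 : ZMod p)) = b * (b - 1) * (b - 2) := by
    have := congrArg (Int.cast : ℤ → ZMod p) (six_mul_choose_three_int b)
    push_cast at this
    exact this
  unfold Lam
  rw [coeff_Pb, coeff_Pb, coeff_Pb]
  simp only [zero_add, Nat.choose_one_right]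
  norm_num
  field_simp
  have e : (12 : ZMod p) * (2 * (b : ZMod p) * (b.choose 3 : ZMod p) - (b.choose 2 : ZMod p) ^ 2)
      = 4 * b * (6 * (b.choose 3 : ZMod p)) - 3 * (2 * (b.choose 2 : ZMod p)) ^ 2 := by ring
  rw [e, h2, h3]
  ring

/-- The key numerical fact: `12 * ∑_b b^(p-3) * Lam (P_b) = -1`. -/
theorem twelve_mul_sum_Lam (hp5 : 5 ≤ p) :
    12 * ∑ b ∈ Finset.Icc 1 (p - 1), ((b ^ (p - 3) : ℕ) : ZMod p) * Lam (Pb p b) = -1 := by
  rw [Finset.mul_sum]
  have h : ∀ b ∈ Finset.Icc 1 (p - 1),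
      12 * (((b ^ (p - 3) : ℕ) : ZMod p) * Lam (Pb p b)) =
        (b : ZMod p) ^ (p - 1) - 6 * (b : ZMod p) ^ (p - 2) + 5 * (b : ZMod p) ^ (p - 3) := by
    intro b hb
    have hb0 := natCast_ne_zero_of_mem_Icc p hb
    have e1 : (b : ZMod p) ^ (p - 1) = (b : ZMod p) ^ (p - 3) * (b : ZMod p) ^ 2 := by
      rw [← pow_add]; congr 1; omega
    have e2 : (b : ZMod p) ^ (p - 2) = (b : ZMod p) ^ (p - 3) * (b : ZMod p) := by
      rw [← pow_succ]; congr 1; omega
    rw [mul_left_comm, twelve_mul_Lam_Pb p b hb0, e1, e2]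
    push_cast
    ring
  rw [Finset.sum_congr rfl h, Finset.sum_add_distrib, Finset.sum_sub_distrib,
    ← Finset.mul_sum, ← Finset.mul_sum, sum_Icc_pow_card_sub_one,
    sum_Icc_pow_eq_zero p (p - 2) (by omega) (by omega),
    sum_Icc_pow_eq_zero p (p - 3) (by omega) (by omega)]
  ring

end Sums

end Fermat.Agent.S14.H358
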